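/-
S19lib / GI / Star  (helper2)  — Project FF, block FF-G part 1 (descent `I → D`).

* `star σ f = σ ∘ f ∘ σ⁻¹` : the semilinear action of a group `G` (acting on the field `K` and on a
  set `Y`) on functions `Y → K`; `starHom : G →* AddMonoid.End (Y → K)`.
* coset sums: for subgroups `D' , D` of `G` with `D' ⊓ D` of finite index in `D`, and an additive
  action `act : G →* AddMonoid.End M`, `cosetSum act D D' m = ∑_{q ∈ D/D'} q • m`; it is `D`-invariant
  when `m` is `D'`-invariant (`act_cosetSum`).
-/
import Mathlib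

set_option autoImplicit false
set_option linter.unusedSectionVars false

noncomputable section

namespace Fermat.Agent.S19lib.GI

variable {G K : Type*} [Group G] [Field K] [MulSemiringAction G K]

section Star

variable {Y : Type*} [MulAction G Y]

/-- the semilinear action on functions: `(σ ⋆ f)(y) = σ (f (σ⁻¹ y))` -/
def star (σ : G) (f : Y → K) : Y → K := fun y => σ • f (σ⁻¹ • y)

theorem star_apply (σ : G) (f : Y → K) (y : Y) : star σ f y = σ • f (σ⁻¹ • y) := rfl

theorem star_apply_smul (σ : G) (f : Y → K) (y : Y) : star σ f (σ • y) = σ • f y := by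
  rw [star_apply, inv_smul_smul]

theorem star_one (f : Y → K) : star (1 : G) f = f := by
  funext y
  rw [star_apply, inv_one, one_smul, one_smul]

theorem star_mul (σ τ : G) (f : Y → K) : star (σ * τ) f = star σ (star τ f) := by
  funext y
  rw [star_apply, star_apply, star_apply, mul_inv_rev, mul_smul, mul_smul]

theorem star_zero (σ : G) : star σ (0 : Y → K) = 0 := by
  funext y
  rw [star_apply]
  exact smul_zero σ

theorem star_add (σ : G) (f g : Y → K) : star σ (f + g) = star σ f + star σ g := by
  funext y
  show σ • (f (σ⁻¹ • y) + g (σ⁻¹ • y)) = _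
  rw [smul_add]
  rfl

theorem star_mul_fun (σ : G) (f g : Y → K) :
    star σ (fun y => f y * g y) = fun y => star σ f y * star σ g y := by
  funext y
  show σ • (f (σ⁻¹ • y) * g (σ⁻¹ • y)) = _
  rw [smul_mul']
  rfl

theorem star_const_mul (σ : G) (a : K) (f : Y → K) :
    star σ (fun y => a * f y) = fun y => σ • a * star σ f y := by
  funext y
  show σ • (a * f (σ⁻¹ • y)) = _
  rw [smul_mul']
  rfl

theorem star_const (σ : G) (a : K) : star σ (fun _ : Y => a) = fun _ => σ • a := rfl

/-- `star` as a monoid homomorphism into the additive endomorphisms -/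
def starHom : G →* AddMonoid.End (Y → K) where
  toFun σ :=
    { toFun := star σ
      map_zero' := star_zero σ
      map_add' := star_add σ }
  map_one' := by
    ext f : 1
    exact star_one f
  map_mul' σ τ := by
    ext f : 1
    exact star_mul σ τ f

theorem starHom_apply (σ : G) (f : Y → K) : (starHom σ : AddMonoid.End (Y → K)) f = star σ f := rfl

/-- `f` is equivariant under `σ` iff it is fixed by `star σ` -/
theorem star_eq_self_iff (σ : G) (f : Y → K) : star σ f = f ↔ ∀ y, f (σ • y) = σ • f y := by
  constructor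
  · intro h y
    rw [← star_apply_smul, h]
  · intro h
    funext y
    rw [star_apply, ← h, smul_inv_smul]

end Star

section Coset

attribute [local instance] Subgroup.fintypeQuotientOfFiniteIndex

variable {M : Type*} [AddCommMonoid M] (act : G →* AddMonoid.End M) (D D' : Subgroup G)

/-- the sum of the translates of `m` over the cosets `D / D'` -/
def cosetSum [(D'.subgroupOf D).FiniteIndex] (m : M) : M :=
  ∑ q : ↥D ⧸ D'.subgroupOf D, act (((q.out : ↥D) : G)) m

variable {act D D'}

/-- for a `D'`-invariant `m`, the translate by a representative only depends on the coset -/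
theorem act_out_eq {m : M} (hm : ∀ τ ∈ D', act τ m = m) (s : ↥D) :
    act ((((QuotientGroup.mk s : ↥D ⧸ D'.subgroupOf D).out : ↥D)) : G) m = act (s : G) m := by
  obtain ⟨h, hh⟩ := QuotientGroup.mk_out_eq_mul (D'.subgroupOf D) s
  rw [hh]
  have : (((s * (h : ↥D) : ↥D)) : G) = (s : G) * ((h : ↥D) : G) := rfl
  rw [this, map_mul]
  show act (s : G) (act ((h : ↥D) : G) m) = _
  rw [hm _ (Subgroup.mem_subgroupOf.1 h.2)]

/-- **the coset sum of a `D'`-invariant element is `D`-invariant** -/
theorem act_cosetSum [(D'.subgroupOf D).FiniteIndex] {m : M} (hm : ∀ τ ∈ D', act τ m = m)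
    {ρ : G} (hρ : ρ ∈ D) : act ρ (cosetSum act D D' m) = cosetSum act D D' m := by
  unfold cosetSum
  rw [map_sum]
  let ρ' : ↥D := ⟨ρ, hρ⟩
  have h1 : ∀ q : ↥D ⧸ D'.subgroupOf D,
      act ρ (act (((q.out : ↥D) : G)) m) = act ((((ρ' • q).out : ↥D)) : G) m := by
    intro q
    have h2 : ρ' • q = QuotientGroup.mk (ρ' * q.out) := by
      conv_lhs => rw [← QuotientGroup.out_eq' q]
      rfl
    rw [h2, act_out_eq hm]
    have : (((ρ' * q.out : ↥D)) : G) = ρ * ((q.out : ↥D) : G) := rfl
    rw [this, map_mul]
    rfl
  rw [Finset.sum_congr rfl fun q _ => h1 q]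
  exact Equiv.sum_comp (MulAction.toPerm ρ')
    fun q : ↥D ⧸ D'.subgroupOf D => act (((q.out : ↥D) : G)) m

/-- the representative of a coset lies in `D'` iff the coset is the trivial one -/
theorem out_mem_iff (q : ↥D ⧸ D'.subgroupOf D) :
    ((q.out : ↥D) : G) ∈ D' ↔ q = QuotientGroup.mk 1 := by
  constructor
  · intro h
    rw [← QuotientGroup.out_eq' q]
    refine (QuotientGroup.eq.2 ?_).symm
    rw [inv_one, one_mul]
    exact Subgroup.mem_subgroupOf.2 h
  · intro h
    have h1 : (QuotientGroup.mk (q.out) : ↥D ⧸ D'.subgroupOf D) = QuotientGroup.mk 1 := by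
      rw [QuotientGroup.out_eq']
      exact h
    have h2 := QuotientGroup.eq.1 h1.symm
    rw [inv_one, one_mul] at h2
    exact Subgroup.mem_subgroupOf.1 h2

theorem out_mem (q : ↥D ⧸ D'.subgroupOf D) : ((q.out : ↥D) : G) ∈ D := (q.out).2

end Coset

end Fermat.Agent.S19lib.GI
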