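/-
S19lib / GI / Act  (helper2)  — Project FF, block FF-G part 1 (descent `I → D`).

The action of `G_ℚ` on a finite continuous Galois module `Γ ⊆ J`, the semilinear action on
functions `Γ → ℚ̄`, `Γ × Γ → ℚ̄`, and the stabilisers:

* `galAct`       : `DistribMulAction G_ℚ Γ`;
* `starStab ψ`   : the stabiliser of `ψ : Γ → ℚ̄` under `star`; it is OPEN (`isOpen_starStab`);
* `valStab x`    : the common stabiliser of finitely many elements of `ℚ̄`; open.
-/
import Mathlib
import Fermat.Agent.S19lib.Iface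
import Fermat.Agent.S19lib.GI.Star

set_option autoImplicit false
set_option linter.unusedSectionVars false

noncomputable section

namespace Fermat.Agent.S19lib.GI

open Fermat.Agent.S19lib

local notation "Qb" => AlgebraicClosure ℚ
local notation "GQ" => (AlgebraicClosure ℚ ≃ₐ[ℚ] AlgebraicClosure ℚ)

section Act

variable {J : Type} [AddCommGroup J] [DistribMulAction GQ J]

/-- the action of `G_ℚ` on a Galois-stable subgroup -/
@[reducible] def galAct (Γ : AddSubgroup J) (hst : ∀ σ : GQ, ∀ x ∈ Γ, σ • x ∈ Γ) :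
    DistribMulAction GQ Γ where
  smul σ x := ⟨σ • (x : J), hst σ x x.2⟩
  one_smul x := Subtype.ext (one_smul GQ (x : J))
  mul_smul σ τ x := Subtype.ext (mul_smul σ τ (x : J))
  smul_zero σ := Subtype.ext (smul_zero σ)
  smul_add σ x y := Subtype.ext (smul_add σ (x : J) (y : J))

/-- Galois stability of a subgroup, as a class (so that the action below is an instance) -/
class GalStable (Γ : AddSubgroup J) : Prop where
  stable : ∀ σ : GQ, ∀ x ∈ Γ, σ • x ∈ Γ

instance galActInst (Γ : AddSubgroup J) [h : GalStable Γ] : DistribMulAction GQ Γ :=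
  galAct Γ h.stable

theorem coe_gal_smul (Γ : AddSubgroup J) [GalStable Γ] (σ : GQ) (x : Γ) :
    ((σ • x : Γ) : J) = σ • (x : J) := rfl

end Act

section Stab

variable {Y : Type*} [MulAction GQ Y]

/-- the stabiliser of a function under the semilinear action -/
def starStab (ψ : Y → Qb) : Subgroup GQ where
  carrier := {τ | star τ ψ = ψ}
  one_mem' := star_one ψ
  mul_mem' := fun {σ τ} hσ hτ => by
    show star (σ * τ) ψ = ψ
    rw [star_mul, hτ, hσ]
  inv_mem' := fun {σ} hσ => by
    show star σ⁻¹ ψ = ψ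
    have h : star σ⁻¹ (star σ ψ) = ψ := by rw [← star_mul, inv_mul_cancel, star_one]
    rwa [hσ] at h

theorem mem_starStab {ψ : Y → Qb} {τ : GQ} : τ ∈ starStab ψ ↔ star τ ψ = ψ := Iff.rfl

/-- the stabiliser of a function on a finite set whose points have open stabilisers is open -/
theorem isOpen_starStab [Finite Y] (hY : ∀ y : Y, IsOpen ((MulAction.stabilizer GQ y : Subgroup GQ) :
    Set GQ)) (ψ : Y → Qb) : IsOpen ((starStab ψ : Subgroup GQ) : Set GQ) := by
  have : Algebra.IsAlgebraic ℚ Qb := AlgebraicClosure.isAlgebraic ℚ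
  have : Algebra.IsIntegral ℚ Qb := Algebra.IsAlgebraic.isIntegral
  let W : Subgroup GQ := (⨅ y : Y, MulAction.stabilizer GQ y) ⊓ ⨅ y : Y, MulAction.stabilizer GQ (ψ y)
  have hW : IsOpen (W : Set GQ) := by
    show IsOpen (((⨅ y : Y, MulAction.stabilizer GQ y) ⊓
      ⨅ y : Y, MulAction.stabilizer GQ (ψ y) : Subgroup GQ) : Set GQ)
    rw [Subgroup.coe_inf, Subgroup.coe_iInf, Subgroup.coe_iInf]
    exact (isOpen_iInter_of_finite hY).inter
      (isOpen_iInter_of_finite fun y => stabilizer_isOpen_of_isIntegral (K := ℚ) (L := Qb) (ψ y))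
  refine Subgroup.isOpen_mono (H₁ := W) (fun τ hτ => ?_) hW
  obtain ⟨h1, h2⟩ := Subgroup.mem_inf.1 hτ
  rw [Subgroup.mem_iInf] at h1 h2
  show star τ ψ = ψ
  funext y
  have hy : τ⁻¹ • y = y := by
    have := h1 y
    rw [MulAction.mem_stabilizer_iff] at this
    rw [inv_smul_eq_iff, this]
  rw [star_apply, hy]
  exact MulAction.mem_stabilizer_iff.1 (h2 y)

/-- the common stabiliser of a finite family of elements of `ℚ̄` -/
def valStab {ι : Type*} (x : ι → Qb) : Subgroup GQ := ⨅ j, MulAction.stabilizer GQ (x j)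

theorem mem_valStab {ι : Type*} {x : ι → Qb} {τ : GQ} : τ ∈ valStab x ↔ ∀ j, τ (x j) = x j := by
  unfold valStab
  rw [Subgroup.mem_iInf]
  exact Iff.rfl

theorem isOpen_valStab {ι : Type*} [Finite ι] (x : ι → Qb) :
    IsOpen ((valStab x : Subgroup GQ) : Set GQ) := by
  have : Algebra.IsAlgebraic ℚ Qb := AlgebraicClosure.isAlgebraic ℚ
  have : Algebra.IsIntegral ℚ Qb := Algebra.IsAlgebraic.isIntegral
  unfold valStab
  rw [Subgroup.coe_iInf]
  exact isOpen_iInter_of_finite fun j => stabilizer_isOpen_of_isIntegral (K := ℚ) (L := Qb) (x j)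

end Stab

section Open

variable {J : Type} [AddCommGroup J] [DistribMulAction GQ J]

/-- points of a finite continuous Galois module have open stabilisers -/
theorem isOpen_stabilizer_of_isFiniteGaloisSubmodule {Γ : AddSubgroup J} [GalStable Γ]
    (hΓ : IsFiniteGaloisSubmodule Γ) (y : Γ) :
    IsOpen ((MulAction.stabilizer GQ y : Subgroup GQ) : Set GQ) := by
  obtain ⟨E, hE, hfix⟩ := hΓ.open_stab y y.2
  refine Subgroup.isOpen_mono (H₁ := E.fixingSubgroup) (fun σ hσ => ?_)
    (IntermediateField.fixingSubgroup_isOpen E)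
  rw [MulAction.mem_stabilizer_iff]
  refine Subtype.ext ?_
  exact hfix σ fun e he => (IntermediateField.mem_fixingSubgroup_iff E σ).1 hσ e he

end Open

end Fermat.Agent.S19lib.GI
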