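/-
S19lib / GI / Etale  (helper2)  — Project FF, block FF-G part 1 (descent `I → D`).

Pure algebra.  `G` acts on the field `K`; `A` a valuation subring; `I, D, D'` subgroups of `G`.
`fixedOf A U = A ∩ K^U`.  The "Galois extension identity"

  `IsEtaleAt A I D D'` : `∃ x_j ∈ A^I, y_j ∈ A^{D'}` (finite families) with
                         `∑_j x_j · s(y_j) = [s ∈ D']` for all `s ∈ D`

implies, for `D' ⊓ D` of finite index in `D`:

* `IsSemiMod.exists_decomp`  (A1): a `D'`-invariant function of a `D`-stable `A^I`-module `H` of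
  functions is an `A^I`-combination of `D`-invariant functions of `H`;
* `exists_descend_coeffs`    (A2): a `D`-invariant `A^{D'}`-combination of `D`-invariant functions is an
  `A^D`-combination of the same functions.
-/
import Mathlib
import Fermat.Agent.S19lib.GI.Star

set_option autoImplicit false
set_option linter.unusedSectionVars false

noncomputable section

namespace Fermat.Agent.S19lib.GI

open Classical

attribute [local instance] Subgroup.fintypeQuotientOfFiniteIndex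

variable {G K : Type*} [Group G] [Field K] [MulSemiringAction G K]

/-- `A ∩ K^U` -/
def fixedOf (A : ValuationSubring K) (U : Subgroup G) : Subring K where
  carrier := {a | a ∈ A ∧ ∀ σ ∈ U, σ • a = a}
  mul_mem' := fun ha hb => ⟨A.mul_mem _ _ ha.1 hb.1, fun σ hσ => by
    rw [smul_mul', ha.2 σ hσ, hb.2 σ hσ]⟩
  one_mem' := ⟨A.one_mem, fun σ _ => smul_one σ⟩
  add_mem' := fun ha hb => ⟨A.add_mem _ _ ha.1 hb.1, fun σ hσ => by
    rw [smul_add, ha.2 σ hσ, hb.2 σ hσ]⟩
  zero_mem' := ⟨A.zero_mem, fun σ _ => smul_zero σ⟩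
  neg_mem' := fun ha => ⟨A.neg_mem _ ha.1, fun σ hσ => by rw [smul_neg, ha.2 σ hσ]⟩

theorem mem_fixedOf {A : ValuationSubring K} {U : Subgroup G} {a : K} :
    a ∈ fixedOf A U ↔ a ∈ A ∧ ∀ σ ∈ U, σ • a = a := Iff.rfl

theorem fixedOf_anti {A : ValuationSubring K} {U V : Subgroup G} (h : U ≤ V) :
    fixedOf A V ≤ fixedOf A U := fun _ ha => ⟨ha.1, fun σ hσ => ha.2 σ (h hσ)⟩

variable (A : ValuationSubring K) (I D D' : Subgroup G)

/-- the Galois extension identity for `A^{D'}` over `A^D` (coefficients allowed in `A^I`) -/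
def IsEtaleAt : Prop :=
  ∃ (n : ℕ) (x y : Fin n → K), (∀ j, x j ∈ fixedOf A I) ∧
    (∀ j, y j ∈ fixedOf A D') ∧ ∀ s ∈ D, ∑ j, x j * s • y j = if s ∈ D' then 1 else 0

variable {A I D D'}

/-- the trace `∑_{q ∈ D/D'} q • z` -/
def tr (D D' : Subgroup G) [(D'.subgroupOf D).FiniteIndex] (z : K) : K :=
  cosetSum (DistribMulAction.toAddMonoidEnd G K) D D' z

theorem tr_eq [(D'.subgroupOf D).FiniteIndex] (z : K) :
    tr D D' z = ∑ q : ↥D ⧸ D'.subgroupOf D, ((q.out : ↥D) : G) • z := rfl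

theorem tr_mem_fixedOf [(D'.subgroupOf D).FiniteIndex] (hDA : ∀ σ ∈ D, ∀ a ∈ A, σ • a ∈ A)
    {z : K} (hz : z ∈ fixedOf A D') : tr D D' z ∈ fixedOf A D := by
  refine ⟨?_, fun ρ hρ => ?_⟩
  · rw [tr_eq]
    exact Subring.sum_mem A.toSubring fun q _ => hDA _ (out_mem q) z hz.1
  · exact act_cosetSum (act := DistribMulAction.toAddMonoidEnd G K) (m := z)
      (fun τ hτ => hz.2 τ hτ) hρ

/-! ### (A1) -/

section A1

variable {Y : Type*} [MulAction G Y]

/-- a `D`-stable `A^I`-module of functions -/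
structure IsSemiMod (A : ValuationSubring K) (I D : Subgroup G) (H : Set (Y → K)) : Prop where
  zero_mem : (0 : Y → K) ∈ H
  add_mem : ∀ φ ∈ H, ∀ ψ ∈ H, φ + ψ ∈ H
  smul_mem : ∀ a ∈ fixedOf A I, ∀ φ ∈ H, (fun y => a * φ y) ∈ H
  star_mem : ∀ σ ∈ D, ∀ φ ∈ H, star σ φ ∈ H

theorem IsSemiMod.sum_mem {H : Set (Y → K)} (hH : IsSemiMod A I D H) {κ : Type*} (s : Finset κ)
    (f : κ → Y → K) (hf : ∀ k ∈ s, f k ∈ H) : ∑ k ∈ s, f k ∈ H := by
  induction s using Finset.induction_on with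
  | empty => rw [Finset.sum_empty]; exact hH.zero_mem
  | insert a s ha ih =>
    rw [Finset.sum_insert ha]
    exact hH.add_mem _ (hf a (Finset.mem_insert_self a s)) _
      (ih fun k hk => hf k (Finset.mem_insert_of_mem hk))

/-- **(A1)**, uniform in `ψ` -/
theorem IsSemiMod.exists_decomp {H : Set (Y → K)} (hH : IsSemiMod A I D H) (hI : I ≤ D')
    [(D'.subgroupOf D).FiniteIndex] (het : IsEtaleAt A I D D') :
    ∃ (N : ℕ) (x : Fin N → K), (∀ j, x j ∈ fixedOf A I) ∧
      ∀ ψ ∈ H, (∀ τ ∈ D', star τ ψ = ψ) → ∃ e : Fin N → Y → K,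
        (∀ j, e j ∈ H) ∧ (∀ j, ∀ ρ ∈ D, star ρ (e j) = e j) ∧ ∀ y, ψ y = ∑ j, x j * e j y := by
  obtain ⟨n, x, yy, hx, hy, hxy⟩ := het
  refine ⟨n, x, hx, fun ψ hψ hfix => ?_⟩
  let f : Fin n → Y → K := fun j y => yy j * ψ y
  have hfH : ∀ j, f j ∈ H := fun j => hH.smul_mem _ (fixedOf_anti hI (hy j)) ψ hψ
  have hffix : ∀ j, ∀ τ ∈ D', star τ (f j) = f j := by
    intro j τ hτ
    show star τ (fun y => yy j * ψ y) = _
    rw [star_const_mul, (hy j).2 τ hτ, hfix τ hτ]
  let e : Fin n → Y → K := fun j => cosetSum (starHom (K := K) (Y := Y)) D D' (f j)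
  have he : ∀ j, e j = ∑ q : ↥D ⧸ D'.subgroupOf D, star (((q.out : ↥D) : G)) (f j) := fun j => rfl
  refine ⟨e, fun j => ?_, fun j ρ hρ => ?_, fun y => ?_⟩
  · rw [he]
    exact hH.sum_mem _ _ fun q _ => hH.star_mem _ (out_mem q) _ (hfH j)
  · exact act_cosetSum (act := starHom (K := K) (Y := Y)) (m := f j)
      (fun τ hτ => hffix j τ hτ) hρ
  · have h1 : ∀ j, e j y = ∑ q : ↥D ⧸ D'.subgroupOf D,
        (((q.out : ↥D) : G) • yy j) * star (((q.out : ↥D) : G)) ψ y := by
      intro j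
      rw [he, Finset.sum_apply]
      refine Finset.sum_congr rfl fun q _ => ?_
      show star _ (fun y => yy j * ψ y) y = _
      rw [star_const_mul]
    have h2 : ∑ j, x j * e j y = ∑ q : ↥D ⧸ D'.subgroupOf D,
        (∑ j, x j * (((q.out : ↥D) : G) • yy j)) * star (((q.out : ↥D) : G)) ψ y := by
      simp_rw [h1, Finset.mul_sum, Finset.sum_mul]
      rw [Finset.sum_comm]
      refine Finset.sum_congr rfl fun q _ => Finset.sum_congr rfl fun j _ => ?_
      ring
    rw [h2, Finset.sum_eq_single (QuotientGroup.mk 1 : ↥D ⧸ D'.subgroupOf D)]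
    · have hmem : (((QuotientGroup.mk 1 : ↥D ⧸ D'.subgroupOf D).out : ↥D) : G) ∈ D' :=
        (out_mem_iff _).2 rfl
      rw [hxy _ (out_mem _), if_pos hmem, one_mul, hfix _ hmem]
    · intro q _ hq
      rw [hxy _ (out_mem q), if_neg (fun h => hq ((out_mem_iff q).1 h)), zero_mul]
    · intro h
      exact absurd (Finset.mem_univ _) h

end A1

/-! ### (A2) -/

section A2

variable {Y : Type*} [MulAction G Y]

/-- under the Galois extension identity some trace is a unit -/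
theorem exists_tr_unit [(D'.subgroupOf D).FiniteIndex] (hDA : ∀ σ ∈ D, ∀ a ∈ A, σ • a ∈ A)
    (het : IsEtaleAt A I D D') :
    ∃ y ∈ fixedOf A D', tr D D' y ≠ 0 ∧ (tr D D' y)⁻¹ ∈ fixedOf A D := by
  obtain ⟨n, x, yy, hx, hy, hxy⟩ := het
  have hsum : ∑ j, x j * tr D D' (yy j) = 1 := by
    simp_rw [tr_eq, Finset.mul_sum]
    rw [Finset.sum_comm]
    rw [Finset.sum_eq_single (QuotientGroup.mk 1 : ↥D ⧸ D'.subgroupOf D)]
    · rw [hxy _ (out_mem _), if_pos ((out_mem_iff _).2 rfl)]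
    · intro q _ hq
      rw [hxy _ (out_mem q), if_neg (fun h => hq ((out_mem_iff q).1 h))]
    · intro h
      exact absurd (Finset.mem_univ _) h
  have hex : ∃ j, ¬ A.valuation (x j * tr D D' (yy j)) < 1 := by
    by_contra hcon
    have hcon' : ∀ j ∈ (Finset.univ : Finset (Fin n)), A.valuation (x j * tr D D' (yy j)) < 1 :=
      fun j _ => by_contra fun h => hcon ⟨j, h⟩
    have := A.valuation.map_sum_lt (one_ne_zero) hcon'
    rw [hsum, map_one] at this
    exact lt_irrefl _ this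
  obtain ⟨j, hj⟩ := hex
  have htr := tr_mem_fixedOf hDA (hy j)
  refine ⟨yy j, hy j, ?_⟩
  have h1 : A.valuation (x j) ≤ 1 := (A.valuation_le_one_iff _).2 (hx j).1
  have h2 : A.valuation (tr D D' (yy j)) ≤ 1 := (A.valuation_le_one_iff _).2 htr.1
  have h3 : A.valuation (tr D D' (yy j)) = 1 := by
    refine le_antisymm h2 ?_
    rw [map_mul, not_lt] at hj
    calc (1 : A.ValueGroup) ≤ A.valuation (x j) * A.valuation (tr D D' (yy j)) := hj
      _ ≤ 1 * A.valuation (tr D D' (yy j)) := mul_le_mul_left h1 _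
      _ = _ := one_mul _
  refine ⟨?_, ?_, fun ρ hρ => ?_⟩
  · intro h0
    rw [h0, map_zero] at h3
    exact zero_ne_one h3
  · rw [← A.valuation_le_one_iff, map_inv₀, h3, inv_one]
  · rw [smul_inv'', htr.2 ρ hρ]

/-- **(A2)** -/
theorem exists_descend_coeffs [(D'.subgroupOf D).FiniteIndex]
    (hDA : ∀ σ ∈ D, ∀ a ∈ A, σ • a ∈ A) (het : IsEtaleAt A I D D')
    {κ : Type*} [Fintype κ] (a : κ → K) (ha : ∀ k, a k ∈ fixedOf A D')
    (m : κ → Y → K) (hm : ∀ k, ∀ ρ ∈ D, star ρ (m k) = m k) (F : Y → K)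
    (hF : ∀ y, F y = ∑ k, a k * m k y) (hFD : ∀ ρ ∈ D, star ρ F = F) :
    ∃ b : κ → K, (∀ k, b k ∈ fixedOf A D) ∧ ∀ y, F y = ∑ k, b k * m k y := by
  obtain ⟨y, hy, ht0, hinv⟩ := exists_tr_unit hDA het
  refine ⟨fun k => (tr D D' y)⁻¹ * tr D D' (y * a k), fun k => ?_, fun y₀ => ?_⟩
  · exact (fixedOf A D).mul_mem hinv (tr_mem_fixedOf hDA ((fixedOf A D').mul_mem hy (ha k)))
  · have hkey : tr D D' y * F y₀ = ∑ k, tr D D' (y * a k) * m k y₀ := by
      have hq : ∀ q : ↥D ⧸ D'.subgroupOf D, (((q.out : ↥D) : G) • y) * F y₀ =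
          ∑ k, (((q.out : ↥D) : G) • (y * a k)) * m k y₀ := by
        intro q
        set s : G := ((q.out : ↥D) : G) with hs
        have hsD : s ∈ D := out_mem q
        have h1 : F y₀ = s • F (s⁻¹ • y₀) := by
          conv_lhs => rw [← hFD s hsD]
          rfl
        have h2 : ∀ k, m k y₀ = s • m k (s⁻¹ • y₀) := by
          intro k
          conv_lhs => rw [← hm k s hsD]
          rfl
        rw [h1, hF, Finset.smul_sum, Finset.mul_sum]
        refine Finset.sum_congr rfl fun k _ => ?_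
        rw [h2 k, smul_mul', smul_mul']
        ring
      rw [tr_eq, Finset.sum_mul, Finset.sum_congr rfl fun q _ => hq q, Finset.sum_comm]
      refine Finset.sum_congr rfl fun k _ => ?_
      rw [tr_eq, Finset.sum_mul]
    have : F y₀ = (tr D D' y)⁻¹ * (tr D D' y * F y₀) := by
      rw [← mul_assoc, inv_mul_cancel₀ ht0, one_mul]
    rw [this, hkey, Finset.mul_sum]
    refine Finset.sum_congr rfl fun k _ => ?_
    ring

end A2

end Fermat.Agent.S19lib.GI
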