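/-
S19lib / GI / Units  (helper2)  — Project FF, block FF-G part 1 (descent `I → D`).

The Galois extension identity from "unramifiedness":  if for every `s ∈ D ∖ D'` there is
`y ∈ A^{D'}` with `y - s y ∈ A^×`, then `IsEtaleAt A I D D'`
(for each non-trivial coset `q` the pairs `(u⁻¹, y)`, `(-u⁻¹ s(y), 1)`; multiply over the cosets).
-/
import Mathlib
import Fermat.Agent.S19lib.GI.Etale

set_option autoImplicit false
set_option linter.unusedSectionVars false

noncomputable section

namespace Fermat.Agent.S19lib.GI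

open Classical

attribute [local instance] Subgroup.fintypeQuotientOfFiniteIndex

variable {G K : Type*} [Group G] [Field K] [MulSemiringAction G K]
variable {A : ValuationSubring K} {I D D' : Subgroup G}

/-- translates of a `D'`-fixed element by a representative of a coset -/
theorem out_smul_eq {y : K} (hy : ∀ τ ∈ D', τ • y = y) (s : ↥D) :
    ((((QuotientGroup.mk s : ↥D ⧸ D'.subgroupOf D).out : ↥D)) : G) • y = (s : G) • y :=
  act_out_eq (act := DistribMulAction.toAddMonoidEnd G K) (m := y) hy s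

/-- reindexing of the identity by `Fin n` -/
theorem isEtaleAt_of_fintype {ι : Type*} [Fintype ι] (x y : ι → K)
    (hx : ∀ j, x j ∈ fixedOf A I) (hy : ∀ j, y j ∈ fixedOf A D')
    (hxy : ∀ s ∈ D, ∑ j, x j * s • y j = if s ∈ D' then 1 else 0) : IsEtaleAt A I D D' := by
  let e := Fintype.equivFin ι
  refine ⟨Fintype.card ι, fun j => x (e.symm j), fun j => y (e.symm j), fun j => hx _,
    fun j => hy _, fun s hs => ?_⟩
  rw [← hxy s hs]
  exact Equiv.sum_comp e.symm fun j => x j * s • y j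

/-- **the Galois extension identity from unramifiedness** -/
theorem isEtaleAt_of_units [(D'.subgroupOf D).FiniteIndex] (hI : I ≤ D')
    (hIn : ∀ s ∈ D, ∀ τ ∈ I, s⁻¹ * τ * s ∈ I) (hDA : ∀ σ ∈ D, ∀ a ∈ A, σ • a ∈ A)
    (hU : ∀ s ∈ D, s ∉ D' → ∃ y ∈ fixedOf A D', y - s • y ≠ 0 ∧ (y - s • y)⁻¹ ∈ A) :
    IsEtaleAt A I D D' := by
  let Q := ↥D ⧸ D'.subgroupOf D
  let Q' := {q : Q // q ≠ QuotientGroup.mk 1}
  have hout : ∀ q : Q', (((q.1.out : ↥D)) : G) ∉ D' := fun q h => q.2 ((out_mem_iff q.1).1 h)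
  choose yq hyq hu0 hu using fun q : Q' => hU _ (out_mem q.1) (hout q)
  let sq : Q' → G := fun q => (((q.1.out : ↥D)) : G)
  let u : Q' → K := fun q => yq q - sq q • yq q
  -- the two pairs attached to a coset
  let xx : Q' → Bool → K := fun q b => if b then (u q)⁻¹ else -((u q)⁻¹ * sq q • yq q)
  let yy : Q' → Bool → K := fun q b => if b then yq q else 1
  have hsyI : ∀ q, sq q • yq q ∈ fixedOf A I := by
    intro q
    refine ⟨hDA _ (out_mem q.1) _ (hyq q).1, fun τ hτ => ?_⟩
    have h1 : τ • sq q • yq q = sq q • ((sq q)⁻¹ * τ * sq q) • yq q := by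
      rw [← mul_smul, ← mul_smul, ← mul_assoc, ← mul_assoc, mul_inv_cancel, one_mul]
    rw [h1, (hyq q).2 _ (hI (hIn _ (out_mem q.1) τ hτ))]
  have huI : ∀ q, (u q)⁻¹ ∈ fixedOf A I := by
    intro q
    refine ⟨hu q, fun τ hτ => ?_⟩
    rw [smul_inv'']
    congr 1
    show τ • (yq q - sq q • yq q) = _
    rw [smul_sub, (hyq q).2 τ (hI hτ), (hsyI q).2 τ hτ]
  have hxx : ∀ q b, xx q b ∈ fixedOf A I := by
    intro q b
    cases b with
    | true => exact huI q
    | false => exact (fixedOf A I).neg_mem ((fixedOf A I).mul_mem (huI q) (hsyI q))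
  have hyy : ∀ q b, yy q b ∈ fixedOf A D' := by
    intro q b
    cases b with
    | true => exact hyq q
    | false => exact (fixedOf A D').one_mem
  -- the local identity
  have hloc : ∀ (q : Q') (s : G), ∑ b : Bool, xx q b * s • yy q b =
      (u q)⁻¹ * (s • yq q - sq q • yq q) := by
    intro q s
    rw [Fintype.sum_bool]
    show (u q)⁻¹ * s • yq q + -((u q)⁻¹ * sq q • yq q) * s • (1 : K) = _
    rw [smul_one]
    ring
  refine isEtaleAt_of_fintype (fun J : Q' → Bool => ∏ q, xx q (J q))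
    (fun J : Q' → Bool => ∏ q, yy q (J q))
    (fun J => Subring.prod_mem _ fun q _ => hxx q (J q))
    (fun J => Subring.prod_mem _ fun q _ => hyy q (J q)) fun s hs => ?_
  have h1 : ∑ J : Q' → Bool, (∏ q, xx q (J q)) * s • ∏ q, yy q (J q) =
      ∏ q : Q', ∑ b : Bool, xx q b * s • yy q b := by
    rw [Finset.prod_univ_sum, Fintype.piFinset_univ]
    refine Finset.sum_congr rfl fun J _ => ?_
    rw [Finset.smul_prod', Finset.prod_mul_distrib]
  rw [h1, Finset.prod_congr rfl fun q _ => hloc q s]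
  by_cases hsD' : s ∈ D'
  · rw [if_pos hsD']
    refine Finset.prod_eq_one fun q _ => ?_
    rw [(hyq q).2 s hsD']
    exact inv_mul_cancel₀ (hu0 q)
  · rw [if_neg hsD']
    let s' : ↥D := ⟨s, hs⟩
    have hq0 : (QuotientGroup.mk s' : Q) ≠ QuotientGroup.mk 1 := by
      intro h
      have h2 := QuotientGroup.eq.1 h.symm
      rw [inv_one, one_mul] at h2
      exact hsD' (Subgroup.mem_subgroupOf.1 h2)
    refine Finset.prod_eq_zero (Finset.mem_univ (⟨QuotientGroup.mk s', hq0⟩ : Q')) ?_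
    have : sq ⟨QuotientGroup.mk s', hq0⟩ • yq ⟨QuotientGroup.mk s', hq0⟩ =
        s • yq ⟨QuotientGroup.mk s', hq0⟩ :=
      out_smul_eq (fun τ hτ => (hyq ⟨QuotientGroup.mk s', hq0⟩).2 τ hτ) s'
    rw [this, sub_self, mul_zero]

end Fermat.Agent.S19lib.GI
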