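/-
S19lib / GI / Unram  (helper2)  — Project FF, block FF-G part 1 (descent `I → D`).

The arithmetic input.  `A` a valuation subring of `ℚ̄` over `ℓ`, `D`, `I` its decomposition and
inertia groups, `U ≤ G_ℚ` an OPEN subgroup containing `I`.

* `mem_of_trivial_on_fixed` : `σ ∈ D` acting trivially on the residue ring of `ℤ̄^U` lies in `U`
  (Mathlib: the stabiliser of a prime of `ℤ̄` in the profinite group `U` surjects onto the
  automorphisms of the residue extension; `τ⁻¹ σ` acts trivially on the residue field, so lies in `I`);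
* `exists_unit_diff` : for `σ ∈ D ∖ U` there is `y ∈ A^U` with `y − σ y ∈ A^×`.
-/
import Mathlib
import Fermat.Agent.Helper5.FrobExists
import Fermat.Agent.S56lib.TWSel.Places

set_option autoImplicit false
set_option linter.unusedSectionVars false

noncomputable section

namespace Fermat.Agent.S19lib.GI

open Fermat.Agent.Helper5 Fermat.Agent.S56lib.TWSel
open scoped Pointwise

/-- the elements of `ℤ̄` fixed by a subgroup `U` -/
def zbarFixed (U : Subgroup GQ) : Subring Zbar where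
  carrier := {b | ∀ τ ∈ U, τ • b = b}
  mul_mem' := fun ha hb τ hτ => by rw [smul_mul', ha τ hτ, hb τ hτ]
  one_mem' := fun τ _ => smul_one τ
  add_mem' := fun ha hb τ hτ => by rw [smul_add, ha τ hτ, hb τ hτ]
  zero_mem' := fun τ _ => smul_zero τ
  neg_mem' := fun ha τ hτ => by rw [smul_neg, ha τ hτ]

theorem mem_zbarFixed {U : Subgroup GQ} {b : Zbar} : b ∈ zbarFixed U ↔ ∀ τ ∈ U, τ • b = b :=
  Iff.rfl

instance zbarFixed_smulCommClass (U : Subgroup GQ) : SMulCommClass ↥U ↥(zbarFixed U) Zbar where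
  smul_comm τ r b := by
    show τ • ((r : Zbar) * b) = (r : Zbar) * τ • b
    rw [smul_mul']
    congr 1
    exact r.2 τ.1 τ.2

instance zbarFixed_isInvariant (U : Subgroup GQ) : Algebra.IsInvariant ↥(zbarFixed U) Zbar ↥U where
  isInvariant b hb := ⟨⟨b, fun τ hτ => hb ⟨τ, hτ⟩⟩, rfl⟩

theorem smul_primeOf_of_mem_decomp {A : ValuationSubring Qbar} {σ : GQ}
    (hσ : σ ∈ A.decompositionSubgroup ℚ) : σ • primeOf A = primeOf A := by
  rw [← primeOf_smul, mem_decomp_iff.1 hσ]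

theorem coe_smul_zbar (σ : GQ) (b : Zbar) : ((σ • b : Zbar) : Qbar) = σ (b : Qbar) := rfl

section Main

variable {A : ValuationSubring Qbar} {ℓ : ℕ}

/-- an element of `G_ℚ` stabilising `primeOf A` lies in the decomposition group -/
theorem mem_decomp_of_smul_primeOf (hℓ : ℓ.Prime) (hA : A.LiesOverPrime ℓ) {τ : GQ}
    (hτ : τ • primeOf A = primeOf A) : τ ∈ A.decompositionSubgroup ℚ := by
  rw [mem_decomp_iff]
  refine (eq_of_primeOf_eq hℓ hA (liesOverPrime_smul hA) ?_).symm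
  rw [primeOf_smul, hτ]

/-- an element of the decomposition group acting trivially on `ℤ̄ / primeOf A` is in the inertia
group -/
theorem mem_inertia_of_trivial_on_zbar (hℓ : ℓ.Prime) (hA : A.LiesOverPrime ℓ) {ρ : GQ}
    (hρ : ρ ∈ A.decompositionSubgroup ℚ) (h : ∀ b : Zbar, ρ • b - b ∈ primeOf A) :
    ρ ∈ A.inertiaSubgroupIn ℚ := by
  rw [mem_inertiaSubgroupIn_iff]
  refine ⟨hρ, fun a ha => ?_⟩
  obtain ⟨s, hs, hsa⟩ := (mem_iff_exists_primeOf hℓ hA a).1 ha
  -- `a = b / s`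
  set b : Zbar := ⟨(s : Qbar) * a, hsa⟩ with hb
  have hs0 : (s : Qbar) ≠ 0 := by
    intro h0
    apply hs
    have : s = 0 := Subtype.ext h0
    rw [this]
    exact (primeOf A).zero_mem
  have hρs0 : ρ (s : Qbar) ≠ 0 := fun h0 => hs0 ((map_eq_zero ρ).1 h0)
  have hsinv : ((s : Qbar))⁻¹ ∈ A := unit_of_not_mem_primeOf hs
  have hρsinv : (ρ (s : Qbar))⁻¹ ∈ A := by
    rw [← map_inv₀]
    exact apply_mem_of_mem_decomp hρ hsinv
  have hbs : (b : Qbar) = (s : Qbar) * a := rfl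
  have e1 : ρ (b : Qbar) - (b : Qbar) ∈ A.nonunits := h b
  have e2 : ρ (s : Qbar) - (s : Qbar) ∈ A.nonunits := h s
  have ha' : a = (s : Qbar)⁻¹ * (b : Qbar) := by
    rw [hbs]
    field_simp
  have hρa : ρ a = (ρ (s : Qbar))⁻¹ * ρ (b : Qbar) := by
    have : ρ (b : Qbar) = ρ (s : Qbar) * ρ a := by rw [hbs, map_mul]
    rw [this]
    field_simp
  have key : ρ a - a = (ρ (s : Qbar))⁻¹ * ((ρ (b : Qbar) - (b : Qbar)) -
      a * (ρ (s : Qbar) - (s : Qbar))) := by
    rw [hρa]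
    conv_lhs => rw [ha']
    rw [hbs]
    field_simp
    ring
  rw [key]
  exact mul_mem_nonunits_of_mem hρsinv (sub_mem_nonunits e1 (mul_mem_nonunits_of_mem ha e2))

/-- **(U)**: an element of the decomposition group acting trivially on the residue ring of `ℤ̄^U`
(`U` open, containing the inertia group) lies in `U`. -/
theorem mem_of_trivial_on_fixed (hℓ : ℓ.Prime) (hA : A.LiesOverPrime ℓ) (U : Subgroup GQ)
    (hU : IsOpen (U : Set GQ)) (hIU : A.inertiaSubgroupIn ℚ ≤ U) {σ : GQ}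
    (hσ : σ ∈ A.decompositionSubgroup ℚ)
    (h : ∀ b : Zbar, b ∈ zbarFixed U → σ • b - b ∈ primeOf A) : σ ∈ U := by
  have : CompactSpace ↥U := isCompact_iff_compactSpace.mp (U.isClosed_of_isOpen hU).isCompact
  let Q : Ideal Zbar := primeOf A
  let P : Ideal ↥(zbarFixed U) := Q.under ↥(zbarFixed U)
  have hσQ : σ • Q = Q := smul_primeOf_of_mem_decomp hσ
  -- the automorphism of `ℤ̄ / Q` induced by `σ`, over `ℤ̄^U / P`
  let σ₀ : (Zbar ⧸ Q) ≃+* (Zbar ⧸ Q) :=
    (Ideal.Quotient.stabilizerHom Q (Q.under ℤ) GQ ⟨σ, hσQ⟩).toRingEquiv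
  have hσ₀ : ∀ b : Zbar, σ₀ (Ideal.Quotient.mk Q b) = Ideal.Quotient.mk Q (σ • b) := fun b => rfl
  let σb : (Zbar ⧸ Q) ≃ₐ[↥(zbarFixed U) ⧸ P] (Zbar ⧸ Q) :=
    AlgEquiv.ofRingEquiv (f := σ₀) (by
      intro x
      obtain ⟨r, rfl⟩ := Ideal.Quotient.mk_surjective x
      rw [Ideal.Quotient.algebraMap_mk_of_liesOver]
      show σ₀ (Ideal.Quotient.mk Q (r : Zbar)) = Ideal.Quotient.mk Q (r : Zbar)
      rw [hσ₀, Ideal.Quotient.eq]
      exact h r r.2)
  obtain ⟨⟨τ, hτQ⟩, hτ⟩ :=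
    Ideal.Quotient.stabilizerHom_surjective_of_profinite (G := ↥U) P Q σb
  have hτQ' : (τ : GQ) • Q = Q := hτQ
  have hτD : (τ : GQ) ∈ A.decompositionSubgroup ℚ := mem_decomp_of_smul_primeOf hℓ hA hτQ'
  have hcmp : ∀ b : Zbar, (τ : GQ) • b - σ • b ∈ Q := by
    intro b
    have h1 := congrArg (fun f => f (Ideal.Quotient.mk Q b)) hτ
    simp only [Ideal.Quotient.stabilizerHom_apply] at h1
    have h2 : Ideal.Quotient.mk Q ((τ : GQ) • b) = Ideal.Quotient.mk Q (σ • b) := h1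
    exact Ideal.Quotient.eq.1 h2
  -- `ρ = τ⁻¹ σ` is in the inertia group
  have hρD : (τ : GQ)⁻¹ * σ ∈ A.decompositionSubgroup ℚ :=
    (A.decompositionSubgroup ℚ).mul_mem ((A.decompositionSubgroup ℚ).inv_mem hτD) hσ
  have hρI : (τ : GQ)⁻¹ * σ ∈ A.inertiaSubgroupIn ℚ := by
    refine mem_inertia_of_trivial_on_zbar hℓ hA hρD fun b => ?_
    have h3 : ((τ : GQ)⁻¹ * σ) • b - b = (τ : GQ)⁻¹ • (σ • b - (τ : GQ) • b) := by
      rw [smul_sub, inv_smul_smul, mul_smul]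
    rw [h3]
    have h4 : σ • b - (τ : GQ) • b ∈ Q := by
      have := Q.neg_mem (hcmp b)
      rwa [neg_sub] at this
    have h5 : (τ : GQ)⁻¹ • Q = Q := by
      conv_lhs => rw [← hτQ']
      rw [inv_smul_smul]
    have h6 := Ideal.smul_mem_pointwise_smul (τ : GQ)⁻¹ _ Q h4
    rw [h5] at h6
    exact h6
  have : σ = (τ : GQ) * ((τ : GQ)⁻¹ * σ) := by rw [mul_inv_cancel_left]
  rw [this]
  exact U.mul_mem τ.2 (hIU hρI)

/-- **unramifiedness**: for `σ ∈ D ∖ U` there is a `U`-fixed element `y` of `A` (even of `ℤ̄`) with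
`y − σ y` a unit of `A`. -/
theorem exists_unit_diff (hℓ : ℓ.Prime) (hA : A.LiesOverPrime ℓ) (U : Subgroup GQ)
    (hU : IsOpen (U : Set GQ)) (hIU : A.inertiaSubgroupIn ℚ ≤ U) {σ : GQ}
    (hσ : σ ∈ A.decompositionSubgroup ℚ) (hσU : σ ∉ U) :
    ∃ y : Qbar, y ∈ A ∧ (∀ τ ∈ U, τ y = y) ∧ y - σ y ≠ 0 ∧ (y - σ y)⁻¹ ∈ A := by
  by_contra hcon
  refine hσU (mem_of_trivial_on_fixed hℓ hA U hU hIU hσ fun b hb => ?_)
  by_contra hnot
  refine hcon ⟨(b : Qbar), zbar_mem A b, fun τ hτ => ?_, ?_, ?_⟩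
  · have := congrArg (fun z : Zbar => (z : Qbar)) (hb τ hτ)
    exact this
  · intro h0
    apply hnot
    have : σ • b - b = 0 := by
      apply Subtype.ext
      show σ (b : Qbar) - (b : Qbar) = 0
      rw [← neg_sub, h0, neg_zero]
    rw [this]
    exact (primeOf A).zero_mem
  · have h1 := unit_of_not_mem_primeOf hnot
    have h2 : ((σ • b - b : Zbar) : Qbar) = -((b : Qbar) - σ (b : Qbar)) := by
      show σ (b : Qbar) - (b : Qbar) = _
      ring
    rw [h2, inv_neg] at h1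
    have := A.neg_mem _ h1
    rwa [neg_neg] at this

end Main

end Fermat.Agent.S19lib.GI
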