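/-
S19lib / GI / Main  (helper2)  — Project FF, block FF-G part 1 (descent `I → D`).

`descentIStmt : DescentIStmt` : a Hopf order `O` over `A0 = A^I` in `Map_I(Γ, ℚ̄)`, stable under the
decomposition group `D`, gives the Hopf order `H_D = {φ ∈ O.H | φ is D-equivariant}` over `AD = A^D`
in `Map_D(Γ, ℚ̄)`.  Only `comul` is not formal: `Δφ = Σ ψ_i ⊗ ψ'_i` with `ψ_i, ψ'_i ∈ O.H`; they are
fixed by an open subgroup `U' ⊇ I`; étale descent (`GI/Etale`, `GI/Units`, `GI/Unram`) rewrites each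
`ψ` as an `A0`-combination of `D`-equivariant functions of `O.H`, and then the `D`-invariant tensor
with coefficients in `A0` as one with coefficients in `AD`.
-/
import Mathlib
import Fermat.Agent.S19lib.Iface
import Fermat.Agent.S19lib.F.ToIface
import Fermat.Agent.S19lib.GI.Units
import Fermat.Agent.S19lib.GI.Unram
import Fermat.Agent.S19lib.GI.Act

set_option autoImplicit false
set_option linter.unusedSectionVars false

noncomputable section

namespace Fermat.Agent.S19lib.GI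

open Fermat.Agent.S19lib

local notation "Qb" => AlgebraicClosure ℚ
local notation "GQ" => (AlgebraicClosure ℚ ≃ₐ[ℚ] AlgebraicClosure ℚ)

/-- **FF-G part 1**: descent of Hopf orders from the inertia group to the decomposition group. -/
def DescentIStmt : Prop :=
  ∀ (ℓ : ℕ) [Fact ℓ.Prime] (A : ValuationSubring Qb), A.LiesOverPrime ℓ →
    ∀ (J : Type) [AddCommGroup J] [DistribMulAction GQ J] (Γ : AddSubgroup J),
      IsFiniteGaloisSubmodule Γ →
      ∀ O : HopfOrder A ℓ (A0 A) (IA A) Γ, O.StableUnder (DA A) →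
        Nonempty (HopfOrder A ℓ (AD A) (DA A) Γ)

theorem mem_fixedOf_IA_iff (A : ValuationSubring Qb) (a : Qb) :
    a ∈ fixedOf A (IA A) ↔ a ∈ A0 A := Iff.rfl

theorem mem_fixedOf_DA_iff (A : ValuationSubring Qb) (a : Qb) :
    a ∈ fixedOf A (DA A) ↔ a ∈ AD A := Iff.rfl

/-- the Galois extension identity for every open subgroup containing the inertia group -/
theorem isEtaleAt_of_open {A : ValuationSubring Qb} {ℓ : ℕ} (hℓ : ℓ.Prime) (hA : A.LiesOverPrime ℓ)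
    (U : Subgroup GQ) (hU : IsOpen (U : Set GQ)) (hIU : IA A ≤ U) :
    ∃ _ : (U.subgroupOf (DA A)).FiniteIndex, IsEtaleAt A (IA A) (DA A) U := by
  haveI : Finite (GQ ⧸ U) := Subgroup.quotient_finite_of_isOpen U hU
  haveI : U.FiniteIndex := Subgroup.finiteIndex_of_finite_quotient
  refine ⟨inferInstance, ?_⟩
  refine isEtaleAt_of_units hIU (fun s hs τ hτ => F.conj_mem_IA hs hτ)
    (fun σ hσ a ha => F.smul_mem_of_mem_DA hσ ha) fun s hs hsU => ?_
  obtain ⟨y, hyA, hyU, hy0, hyinv⟩ := exists_unit_diff hℓ hA U hU hIU hs hsU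
  exact ⟨y, ⟨hyA, hyU⟩, hy0, hyinv⟩

section Glue

variable {A : ValuationSubring Qb} {ℓ : ℕ} {J : Type} [AddCommGroup J] [DistribMulAction GQ J]
  {Γ : AddSubgroup J} [GalStable Γ]

/-- equivariance in the interface form is invariance under `star` -/
theorem star_eq_self_iff_iface (φ : Γ → Qb) (σ : GQ) :
    star σ φ = φ ↔ ∀ x y : Γ, (y : J) = σ • (x : J) → φ y = σ (φ x) := by
  rw [star_eq_self_iff]
  constructor
  · intro h x y hxy
    have : y = σ • x := Subtype.ext hxy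
    rw [this, h]
    rfl
  · intro h y
    exact h y (σ • y) rfl

/-- the order is a `D`-stable `A0`-module of functions -/
theorem isSemiMod_of_hopfOrder (O : HopfOrder A ℓ (A0 A) (IA A) Γ) (hO : O.StableUnder (DA A)) :
    IsSemiMod A (IA A) (DA A) O.H where
  zero_mem := by
    have h := O.smul_mem 0 (A0 A).zero_mem _ O.one_mem
    have h2 : (fun _ : Γ => (0 : Qb) * 1) = 0 := by
      funext x
      exact zero_mul _
    rwa [h2] at h
  add_mem φ hφ ψ hψ := O.add_mem φ hφ ψ hψ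
  smul_mem a ha φ hφ := O.smul_mem a ha φ hφ
  star_mem σ hσ φ hφ := by
    refine hO σ hσ φ hφ (star σ φ) fun x y hxy => ?_
    have : y = σ • x := Subtype.ext hxy
    rw [this, star_apply_smul]
    rfl

/-- **the comultiplication descends** -/
theorem comul_descend (hℓ : ℓ.Prime) (hA : A.LiesOverPrime ℓ) (hΓ : IsFiniteGaloisSubmodule Γ)
    (O : HopfOrder A ℓ (A0 A) (IA A) Γ) (hO : O.StableUnder (DA A)) {φ : Γ → Qb} (hφ : φ ∈ O.H)
    (hφD : ∀ σ ∈ DA A, star σ φ = φ) :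
    ∃ (n : ℕ) (ψ ψ' : Fin n → Γ → Qb),
      (∀ i, ψ i ∈ O.H ∧ ∀ σ ∈ DA A, star σ (ψ i) = ψ i) ∧
      (∀ i, ψ' i ∈ O.H ∧ ∀ σ ∈ DA A, star σ (ψ' i) = ψ' i) ∧
      ∀ x y : Γ, φ (x + y) = ∑ i, ψ i x * ψ' i y := by
  classical
  haveI := hΓ.finite
  have hSM := isSemiMod_of_hopfOrder O hO
  have hDA : ∀ σ ∈ DA A, ∀ a ∈ A, σ • a ∈ A := fun σ hσ a ha => F.smul_mem_of_mem_DA hσ ha
  have hY : ∀ y : Γ, IsOpen ((MulAction.stabilizer GQ y : Subgroup GQ) : Set GQ) :=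
    isOpen_stabilizer_of_isFiniteGaloisSubmodule hΓ
  obtain ⟨n, ψ, ψ', hψ, hψ', hΔ⟩ := O.comul φ hφ
  -- the open subgroup fixing all `ψ i`, `ψ' i`
  let U' : Subgroup GQ := (⨅ i, starStab (ψ i)) ⊓ ⨅ i, starStab (ψ' i)
  have hU'open : IsOpen (U' : Set GQ) := by
    show IsOpen (((⨅ i, starStab (ψ i)) ⊓ ⨅ i, starStab (ψ' i) : Subgroup GQ) : Set GQ)
    rw [Subgroup.coe_inf, Subgroup.coe_iInf, Subgroup.coe_iInf]
    exact (isOpen_iInter_of_finite fun i => isOpen_starStab hY (ψ i)).inter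
      (isOpen_iInter_of_finite fun i => isOpen_starStab hY (ψ' i))
  have hU'fix : ∀ τ ∈ U', ∀ i, star τ (ψ i) = ψ i ∧ star τ (ψ' i) = ψ' i := by
    intro τ hτ i
    obtain ⟨h1, h2⟩ := Subgroup.mem_inf.1 hτ
    exact ⟨Subgroup.mem_iInf.1 h1 i, Subgroup.mem_iInf.1 h2 i⟩
  have hIU' : IA A ≤ U' := by
    intro τ hτ
    refine Subgroup.mem_inf.2 ⟨Subgroup.mem_iInf.2 fun i => ?_, Subgroup.mem_iInf.2 fun i => ?_⟩
    · exact (star_eq_self_iff_iface (ψ i) τ).2 (O.equivariant _ (hψ i) τ hτ)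
    · exact (star_eq_self_iff_iface (ψ' i) τ).2 (O.equivariant _ (hψ' i) τ hτ)
  obtain ⟨hfin, het⟩ := isEtaleAt_of_open hℓ hA U' hU'open hIU'
  haveI := hfin
  obtain ⟨N, x, hx, hdec⟩ := hSM.exists_decomp hIU' het
  choose e he heD hψe using fun i => hdec (ψ i) (hψ i) (fun τ hτ => (hU'fix τ hτ i).1)
  choose e' he' heD' hψe' using fun i => hdec (ψ' i) (hψ' i) (fun τ hτ => (hU'fix τ hτ i).2)
  -- the open subgroup fixing the coefficients
  let U'' : Subgroup GQ := valStab x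
  have hIU'' : IA A ≤ U'' := fun τ hτ => mem_valStab.2 fun j => (hx j).2 τ hτ
  obtain ⟨hfin2, het2⟩ := isEtaleAt_of_open hℓ hA U'' (isOpen_valStab x) hIU''
  haveI := hfin2
  let a : Fin n × Fin N × Fin N → Qb := fun k => x k.2.1 * x k.2.2
  let m : Fin n × Fin N × Fin N → Γ × Γ → Qb := fun k p => e k.1 k.2.1 p.1 * e' k.1 k.2.2 p.2
  let Fn : Γ × Γ → Qb := fun p => φ (p.1 + p.2)
  have ha : ∀ k, a k ∈ fixedOf A U'' := by
    intro k
    refine ⟨A.mul_mem _ _ (hx _).1 (hx _).1, fun τ hτ => ?_⟩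
    show τ • (x k.2.1 * x k.2.2) = x k.2.1 * x k.2.2
    rw [smul_mul']
    have h1 := mem_valStab.1 hτ k.2.1
    have h2 := mem_valStab.1 hτ k.2.2
    show τ (x k.2.1) * τ (x k.2.2) = _
    rw [h1, h2]
  have hm : ∀ k, ∀ ρ ∈ DA A, star ρ (m k) = m k := by
    intro k ρ hρ
    funext p
    show ρ • (e k.1 k.2.1 (ρ⁻¹ • p).1 * e' k.1 k.2.2 (ρ⁻¹ • p).2) = _
    rw [smul_mul']
    have h1 : ρ • e k.1 k.2.1 (ρ⁻¹ • p).1 = star ρ (e k.1 k.2.1) p.1 := rfl
    have h2 : ρ • e' k.1 k.2.2 (ρ⁻¹ • p).2 = star ρ (e' k.1 k.2.2) p.2 := rfl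
    rw [h1, h2, heD k.1 k.2.1 ρ hρ, heD' k.1 k.2.2 ρ hρ]
  have hF : ∀ p, Fn p = ∑ k, a k * m k p := by
    intro p
    show φ (p.1 + p.2) = _
    rw [hΔ, Fintype.sum_prod_type]
    refine Finset.sum_congr rfl fun i _ => ?_
    rw [hψe i p.1, hψe' i p.2, Finset.sum_mul_sum, Fintype.sum_prod_type]
    refine Finset.sum_congr rfl fun j _ => Finset.sum_congr rfl fun j' _ => ?_
    show x j * e i j p.1 * (x j' * e' i j' p.2) = x j * x j' * (e i j p.1 * e' i j' p.2)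
    ring
  have hFD : ∀ ρ ∈ DA A, star ρ Fn = Fn := by
    intro ρ hρ
    funext p
    show ρ • φ ((ρ⁻¹ • p).1 + (ρ⁻¹ • p).2) = φ (p.1 + p.2)
    have h1 : (ρ⁻¹ • p).1 + (ρ⁻¹ • p).2 = ρ⁻¹ • (p.1 + p.2) := (smul_add ρ⁻¹ p.1 p.2).symm
    rw [h1]
    have h2 : ρ • φ (ρ⁻¹ • (p.1 + p.2)) = star ρ φ (p.1 + p.2) := rfl
    rw [h2, hφD ρ hρ]
  obtain ⟨b, hb, hFb⟩ := exists_descend_coeffs hDA het2 a ha m hm Fn hF hFD
  -- reindex by `Fin`
  let eqv := Fintype.equivFin (Fin n × Fin N × Fin N)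
  refine ⟨Fintype.card (Fin n × Fin N × Fin N),
    fun t y => b (eqv.symm t) * e (eqv.symm t).1 (eqv.symm t).2.1 y,
    fun t => e' (eqv.symm t).1 (eqv.symm t).2.2, fun t => ⟨?_, fun σ hσ => ?_⟩,
    fun t => ⟨he' _ _, heD' _ _⟩, fun y y' => ?_⟩
  · exact O.smul_mem _ (fixedOf_anti (F.IA_le_DA A) (hb _)) _ (he _ _)
  · rw [star_const_mul, (hb _).2 σ hσ, heD _ _ σ hσ]
  · have h1 := hFb (y, y')
    show φ (y + y') = _
    rw [show φ (y + y') = Fn (y, y') from rfl, h1]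
    rw [← Equiv.sum_comp eqv.symm]
    refine Finset.sum_congr rfl fun t _ => ?_
    show b (eqv.symm t) * (e (eqv.symm t).1 (eqv.symm t).2.1 y * e' (eqv.symm t).1 (eqv.symm t).2.2 y')
      = _
    ring

end Glue

/-- **FF-G part 1** -/
theorem descentIStmt : DescentIStmt := by
  intro ℓ _ A hA J _ _ Γ hΓ O hO
  have hℓ : ℓ.Prime := Fact.out
  haveI : GalStable Γ := ⟨hΓ.stable⟩
  have hID : IA A ≤ DA A := F.IA_le_DA A
  refine ⟨{
    H := {φ | φ ∈ O.H ∧ ∀ σ ∈ DA A, star σ φ = φ}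
    one_mem := ⟨O.one_mem, fun σ _ => by
      rw [star_const]
      funext _
      exact smul_one σ⟩
    add_mem := fun φ hφ ψ hψ => ⟨O.add_mem φ hφ.1 ψ hψ.1, fun σ hσ => by
      have h := star_add σ φ ψ
      rw [hφ.2 σ hσ, hψ.2 σ hσ] at h
      exact h⟩
    mul_mem := fun φ hφ ψ hψ => ⟨O.mul_mem φ hφ.1 ψ hψ.1, fun σ hσ => by
      rw [star_mul_fun, hφ.2 σ hσ, hψ.2 σ hσ]⟩
    smul_mem := fun r hr φ hφ => ⟨O.smul_mem r (fixedOf_anti hID hr) φ hφ.1, fun σ hσ => by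
      have hr' : σ • r = r := hr.2 σ hσ
      rw [star_const_mul, hφ.2 σ hσ, hr']⟩
    equivariant := fun φ hφ σ hσ x y hxy =>
      (star_eq_self_iff_iface φ σ).1 (hφ.2 σ hσ) x y hxy
    integral := fun φ hφ => O.integral φ hφ.1
    full := fun φ hφ => by
      obtain ⟨n, hn⟩ := O.full φ fun σ hσ => hφ σ (hID hσ)
      refine ⟨n, hn, fun σ hσ => ?_⟩
      rw [star_const_mul, (star_eq_self_iff_iface φ σ).2 (hφ σ hσ)]
      have : σ • (((ℓ : ℕ) : Qb) ^ n) = ((ℓ : ℕ) : Qb) ^ n := by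
        show σ (((ℓ : ℕ) : Qb) ^ n) = _
        rw [map_pow, map_natCast]
      rw [this]
    comul := fun φ hφ => comul_descend hℓ hA hΓ O hO hφ.1 hφ.2
    antipode := fun φ hφ => ⟨O.antipode φ hφ.1, fun σ hσ => by
      funext y
      show σ • φ (-(σ⁻¹ • y)) = φ (-y)
      rw [← smul_neg]
      have h : σ • φ (σ⁻¹ • (-y)) = star σ φ (-y) := rfl
      rw [h, hφ.2 σ hσ]⟩ }⟩

end Fermat.Agent.S19lib.GI
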